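import Fermat.Agent.SiegelKlingen.DivisorSum
import Mathlib.NumberTheory.NumberField.Discriminant.Different

/-!
# The coefficients summed over the classes, for any different

The pairs of trace `m` of all classes together are, up to roots of unity, the pairs of a totally
positive `ξ` of trace `m` in the inverse different `𝔡⁻¹` and an ideal dividing `(ξ) 𝔡`.
-/

set_option autoImplicit false
set_option linter.unusedSectionVars false
set_option linter.style.haveILetI false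

noncomputable section

open NumberField InfinitePlace Module NumberField.mixedEmbedding
open scoped nonZeroDivisors Classical

namespace FA.SiegelConstant

open FA.HeckeFE FA.SiegelKlingen

variable {K : Type*} [Field K] [NumberField K] [IsTotallyReal K]

variable (K) in
/-- The different as a fractional ideal. -/
def diffFrac : FractionalIdeal (𝓞 K)⁰ K := (differentIdeal ℤ (𝓞 K) : Ideal (𝓞 K))

theorem dual_one_eq : FractionalIdeal.dual ℤ ℚ (1 : FractionalIdeal (𝓞 K)⁰ K) = (diffFrac K)⁻¹ := by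
  rw [diffFrac, coeIdeal_differentIdeal ℤ ℚ K, inv_inv]

theorem diffFrac_ne_zero : diffFrac K ≠ 0 := by
  rw [diffFrac, ne_eq, FractionalIdeal.coeIdeal_eq_zero]
  exact differentIdeal_ne_bot

theorem mem_dual_one_iff (ξ : K) :
    ξ ∈ FractionalIdeal.dual ℤ ℚ (1 : FractionalIdeal (𝓞 K)⁰ K) ↔
      ∀ y : 𝓞 K, ∃ z : ℤ, Algebra.trace ℚ K (ξ * y) = z := by
  rw [FractionalIdeal.mem_dual (one_ne_zero' (FractionalIdeal (𝓞 K)⁰ K))]
  constructor
  · intro h y
    obtain ⟨z, hz⟩ := h (y : K) ((FractionalIdeal.mem_one_iff _).2 ⟨y, rfl⟩)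
    rw [eq_intCast, Algebra.traceForm_apply] at hz
    exact ⟨z, hz.symm⟩
  · intro h a ha
    obtain ⟨y, rfl⟩ := (FractionalIdeal.mem_one_iff _).1 ha
    obtain ⟨z, hz⟩ := h y
    exact ⟨z, by rw [eq_intCast, Algebra.traceForm_apply, ← hz]⟩

variable (K) in
/-- The totally positive elements of trace `m` of the inverse different. -/
abbrev TracePt (m : ℕ) : Type _ :=
  {ξ : K // (∀ y : 𝓞 K, ∃ z : ℤ, Algebra.trace ℚ K (ξ * y) = z) ∧
    (∀ w : InfinitePlace K, 0 < remb w ξ) ∧ Algebra.trace ℚ K ξ = m}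

variable {m : ℕ}

theorem TracePt.ne_zero (ξ : TracePt K m) : ξ.1 ≠ 0 := fun h => by
  simpa [h] using ξ.2.2.1 (Classical.arbitrary _)

theorem exists_pointIdeal (ξ : TracePt K m) : ∃ I : Ideal (𝓞 K),
    (I : FractionalIdeal (𝓞 K)⁰ K) = FractionalIdeal.spanSingleton (𝓞 K)⁰ ξ.1 * diffFrac K := by
  refine FractionalIdeal.le_one_iff_exists_coeIdeal.1 ?_
  rw [← inv_inv (diffFrac K), mul_inv_le_iff₀ (pos_iff_ne_zero.2 (inv_ne_zero diffFrac_ne_zero)),
    one_mul, ← dual_one_eq, FractionalIdeal.spanSingleton_le_iff_mem]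
  exact (mem_dual_one_iff _).2 ξ.2.1

/-- The integral ideal `(ξ) 𝔡`. -/
def pointIdeal (ξ : TracePt K m) : Ideal (𝓞 K) := (exists_pointIdeal ξ).choose

theorem pointIdeal_spec (ξ : TracePt K m) :
    (pointIdeal ξ : FractionalIdeal (𝓞 K)⁰ K) =
      FractionalIdeal.spanSingleton (𝓞 K)⁰ ξ.1 * diffFrac K :=
  (exists_pointIdeal ξ).choose_spec

theorem pointIdeal_ne_zero (ξ : TracePt K m) : pointIdeal ξ ≠ 0 := fun h => by
  have h' := pointIdeal_spec ξ
  rw [h, Ideal.zero_eq_bot, FractionalIdeal.coeIdeal_bot, eq_comm, mul_eq_zero,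
    FractionalIdeal.spanSingleton_eq_zero_iff] at h'
  exact h'.elim ξ.ne_zero diffFrac_ne_zero

theorem absNorm_pointIdeal (ξ : TracePt K m) : (Ideal.absNorm (pointIdeal ξ) : ℚ) =
    |Algebra.norm ℚ ξ.1| * ((discr K).natAbs : ℚ) := by
  rw [show (Ideal.absNorm (pointIdeal ξ) : ℚ) =
      FractionalIdeal.absNorm (pointIdeal ξ : FractionalIdeal (𝓞 K)⁰ K) from
        (FractionalIdeal.coeIdeal_absNorm _).symm, pointIdeal_spec, map_mul,
    FractionalIdeal.absNorm_span_singleton, diffFrac, FractionalIdeal.coeIdeal_absNorm,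
    absNorm_differentIdeal K]

/-- The dual condition is divisibility. -/
theorem mem_dual_iff (p : (Ideal (𝓞 K))⁰ × Units.torsion K) (ξ : K) {I : Ideal (𝓞 K)}
    (hI : (I : FractionalIdeal (𝓞 K)⁰ K) = FractionalIdeal.spanSingleton (𝓞 K)⁰ ξ * diffFrac K) :
    ξ / (repOf p).2.1 ∈ (dualIdeal (repIdeal K (repOf p).1) : Set K) ↔
      (p.1 : Ideal (𝓞 K)) ∣ I := by
  obtain ⟨x, hx, hs⟩ := repOf_spec p
  have hc : FractionalIdeal.spanSingleton (𝓞 K)⁰ (repOf p).2.1 =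
      (repIdeal K (repOf p).1 : FractionalIdeal (𝓞 K)⁰ K) * ((p.1 : Ideal (𝓞 K))) := by
    rw [← hx, ← FractionalIdeal.coeIdeal_span_singleton, hs, FractionalIdeal.coeIdeal_mul]
    rfl
  have hc0 : (repOf p).2.1 ≠ 0 := Rep.ne_zero _ (repOf p).2
  show ξ / (repOf p).2.1 ∈ FractionalIdeal.dual ℤ ℚ
    (repIdeal K (repOf p).1 : FractionalIdeal (𝓞 K)⁰ K) ↔ _
  rw [FractionalIdeal.dual_eq_mul_inv, dual_one_eq, ← FractionalIdeal.spanSingleton_le_iff_mem,
    Ideal.dvd_iff_le, ← FractionalIdeal.coeIdeal_le_coeIdeal K, hI]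
  have hu : FractionalIdeal.spanSingleton (𝓞 K)⁰ (repOf p).2.1 * diffFrac K ≠ 0 :=
    mul_ne_zero (FractionalIdeal.spanSingleton_ne_zero_iff.2 hc0) diffFrac_ne_zero
  rw [← mul_le_mul_iff_of_pos_right (pos_iff_ne_zero.2 hu), ← mul_assoc,
    FractionalIdeal.spanSingleton_mul_spanSingleton, div_mul_cancel₀ _ hc0, hc,
    show ((diffFrac K)⁻¹ * (repIdeal K (repOf p).1 : FractionalIdeal (𝓞 K)⁰ K)⁻¹) *
      ((repIdeal K (repOf p).1 : FractionalIdeal (𝓞 K)⁰ K) * (p.1 : Ideal (𝓞 K)) * diffFrac K) =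
      ((diffFrac K)⁻¹ * diffFrac K) * (((repIdeal K (repOf p).1 : FractionalIdeal (𝓞 K)⁰ K)⁻¹ *
        (repIdeal K (repOf p).1 : FractionalIdeal (𝓞 K)⁰ K)) * (p.1 : Ideal (𝓞 K))) by ring,
    inv_mul_cancel₀ diffFrac_ne_zero, inv_mul_cancel₀ (Units.ne_zero _), one_mul, one_mul]

attribute [local irreducible] repOf

variable (K) in
/-- A point, an ideal dividing `(ξ) 𝔡` and a root of unity. -/
abbrev DivPt (m : ℕ) : Type _ :=
  {q : TracePt K m × ((Ideal (𝓞 K))⁰ × Units.torsion K) //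
    (q.2.1 : Ideal (𝓞 K)) ∣ pointIdeal q.1}

theorem exists_equiv_rep (m : ℕ) :
    ∃ e : DivPt K m ≃ Σ C : ClassGroup (𝓞 K), {y : PosPairs (repIdeal K C) //
        level (repIdeal K C) y = m},
      ∀ q, repOf q.1.2 = ⟨(e q).1, (e q).2.1.1.1⟩ ∧
        normR (repIdeal K (e q).1) * ((|Algebra.norm ℚ ((e q).2.1.1.2 : K)| : ℚ) : ℝ) =
        (((Ideal.absNorm (pointIdeal q.1.1) : ℚ) / (discr K).natAbs /
          Ideal.absNorm (q.1.2.1 : Ideal (𝓞 K)) : ℚ) : ℝ) := by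
  have hval : ∀ q : DivPt K m, (repOf q.1.2).2.1 * (q.1.1.1 / (repOf q.1.2).2.1) = q.1.1.1 :=
    fun q => mul_div_cancel₀ _ (Rep.ne_zero _ (repOf q.1.2).2)
  have hpos : ∀ q : DivPt K m, ∀ w : InfinitePlace K,
      0 < remb w (repOf q.1.2).2.1 * remb w (q.1.1.1 / (repOf q.1.2).2.1) := fun q w => by
    rw [← map_mul, hval]
    exact q.1.1.2.2.1 w
  obtain ⟨f, hf⟩ : ∃ f : DivPt K m → Σ C : ClassGroup (𝓞 K),
      {y : PosPairs (repIdeal K C) // level (repIdeal K C) y = m}, ∀ q, f q =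
      ⟨(repOf q.1.2).1, ⟨⟨((repOf q.1.2).2,
        ⟨_, (mem_dual_iff q.1.2 q.1.1.1 (pointIdeal_spec q.1.1)).2 q.2⟩), hpos q⟩,
        Nat.cast_injective (R := ℚ) (by
          rw [(level_spec _ _).1]
          show Algebra.trace ℚ K (_ * _) = _
          rw [hval]
          exact q.1.1.2.2.2)⟩⟩ := ⟨_, fun _ => rfl⟩
  have hbij : Function.Bijective f := by
    refine ⟨fun q q' h => ?_, ?_⟩
    · rw [hf, hf] at h
      have h1 : repOf q.1.2 = repOf q'.1.2 := congrArg (fun z : Σ C : ClassGroup (𝓞 K),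
        {y : PosPairs (repIdeal K C) // level (repIdeal K C) y = m} =>
          (⟨z.1, z.2.1.1.1⟩ : Σ C : ClassGroup (𝓞 K), Rep (repIdeal K C))) h
      have h2 : (repOf q.1.2).2.1 * (q.1.1.1 / (repOf q.1.2).2.1) =
          (repOf q'.1.2).2.1 * (q'.1.1.1 / (repOf q'.1.2).2.1) :=
        congrArg (fun z : Σ C : ClassGroup (𝓞 K),
          {y : PosPairs (repIdeal K C) // level (repIdeal K C) y = m} =>
            z.2.1.1.1.1 * (z.2.1.1.2 : K)) h
      rw [hval, hval] at h2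
      exact Subtype.ext (Prod.ext (Subtype.ext h2) (repOf_bijective.1 h1))
    · rintro ⟨C, ⟨⟨⟨c, ν⟩, hy⟩, hlev⟩⟩
      obtain ⟨p, hp⟩ := repOf_bijective.2 ⟨C, c⟩
      obtain ⟨rfl, hc⟩ := Sigma.mk.inj_iff.1 hp
      obtain rfl := eq_of_heq hc
      have hν : (repOf p).2.1 * (ν : K) / (repOf p).2.1 = (ν : K) :=
        mul_div_cancel_left₀ _ (Rep.ne_zero _ (repOf p).2)
      refine ⟨⟨(⟨(repOf p).2.1 * (ν : K), ?_, fun w => ?_, ?_⟩, p), ?_⟩, ?_⟩
      · intro y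
        obtain ⟨z, hz⟩ := (FractionalIdeal.mem_dual (A := ℤ) (K := ℚ)
          (repIdeal K (repOf p).1).ne_zero).1 ν.2 ((y : K) * (repOf p).2.1) (by
            rw [← Algebra.smul_def]
            exact Submodule.smul_mem _ y (repOf p).2.2.1)
        rw [eq_intCast, Algebra.traceForm_apply] at hz
        exact ⟨z, by rw [hz]; congr 1; ring⟩
      · rw [map_mul]
        exact hy w
      · rw [← hlev, (level_spec _ _).1]
      · refine (mem_dual_iff p _ (pointIdeal_spec _)).1 ?_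
        show (repOf p).2.1 * (ν : K) / (repOf p).2.1 ∈ _
        rw [hν]
        exact ν.2
      · rw [hf]
        exact congrArg (Sigma.mk _) (Subtype.ext (Subtype.ext (Prod.ext rfl (Subtype.ext hν))))
  refine ⟨Equiv.ofBijective f hbij, fun q => ?_⟩
  rw [Equiv.ofBijective_apply, hf]
  refine ⟨rfl, ?_⟩
  obtain ⟨x, hx, hs⟩ := repOf_spec q.1.2
  show normR (repIdeal K (repOf q.1.2).1) *
    ((|Algebra.norm ℚ (q.1.1.1 / (repOf q.1.2).2.1)| : ℚ) : ℝ) = _
  rw [normR, ← Rat.cast_mul, SiegelKlingen.absNorm_repIdeal, absNorm_pointIdeal, ← hx]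
  congr 1
  have hn : |Algebra.norm ℚ (x : K)| =
      (Ideal.absNorm (repInt K (repOf q.1.2).1 : Ideal (𝓞 K)) : ℚ) *
        (Ideal.absNorm (q.1.2.1 : Ideal (𝓞 K)) : ℚ) := by
    rw [← Nat.cast_mul, ← map_mul, ← hs, Ideal.absNorm_span_singleton, ← Algebra.coe_norm_int,
      ← Int.cast_abs, Nat.cast_natAbs]
  have hJ : (Ideal.absNorm (repInt K (repOf q.1.2).1 : Ideal (𝓞 K)) : ℚ) ≠ 0 :=
    Nat.cast_ne_zero.2 (Ideal.absNorm_ne_zero_of_nonZeroDivisors _)
  have hb : (Ideal.absNorm (q.1.2.1 : Ideal (𝓞 K)) : ℚ) ≠ 0 :=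
    Nat.cast_ne_zero.2 (Ideal.absNorm_ne_zero_of_nonZeroDivisors _)
  have hd : ((discr K).natAbs : ℚ) ≠ 0 :=
    Nat.cast_ne_zero.2 (Int.natAbs_ne_zero.2 (discr_ne_zero K))
  have hxK : (x : K) ≠ 0 := hx.symm ▸ Rep.ne_zero _ (repOf q.1.2).2
  have hdiv : Algebra.norm ℚ (q.1.1.1 / (x : K)) =
      Algebra.norm ℚ q.1.1.1 / Algebra.norm ℚ (x : K) := by
    rw [eq_div_iff (Algebra.norm_ne_zero_iff.2 hxK), ← map_mul, div_mul_cancel₀ _ hxK]
  rw [hdiv, abs_div, hn]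
  field_simp

theorem exists_equiv (m : ℕ) :
    ∃ e : DivPt K m ≃ Σ C : ClassGroup (𝓞 K), {y : PosPairs (repIdeal K C) //
        level (repIdeal K C) y = m},
      ∀ q, normR (repIdeal K (e q).1) * ((|Algebra.norm ℚ ((e q).2.1.1.2 : K)| : ℚ) : ℝ) =
        (((Ideal.absNorm (pointIdeal q.1.1) : ℚ) / (discr K).natAbs /
          Ideal.absNorm (q.1.2.1 : Ideal (𝓞 K)) : ℚ) : ℝ) :=
  (exists_equiv_rep m).imp fun _ he q => (he q).2

/-- The sum of the `j`-th powers of the norms of the divisors. -/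
def idealSigma (j : ℕ) (I : Ideal (𝓞 K)) : ℕ :=
  ∑' b : {b : Ideal (𝓞 K) // b ∣ I}, Ideal.absNorm b.1 ^ j

theorem finite_dvd {I : Ideal (𝓞 K)} (hI : I ≠ 0) : Finite {b : Ideal (𝓞 K) // b ∣ I} :=
  (UniqueFactorizationMonoid.fintypeSubtypeDvd I hI).finite

/-- The complementary divisor gives the same sum. -/
theorem tsum_cofactor (j : ℕ) {I : Ideal (𝓞 K)} (hI : I ≠ 0) :
    ∑' b : {b : (Ideal (𝓞 K))⁰ // (b : Ideal (𝓞 K)) ∣ I},
      ((Ideal.absNorm I : ℚ) / Ideal.absNorm (b.1 : Ideal (𝓞 K))) ^ j = idealSigma j I := by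
  obtain ⟨f, hf⟩ : ∃ f : {b : (Ideal (𝓞 K))⁰ // (b : Ideal (𝓞 K)) ∣ I} →
      {b : Ideal (𝓞 K) // b ∣ I}, ∀ b, I = (b.1 : Ideal (𝓞 K)) * (f b).1 :=
    ⟨fun b => ⟨b.2.choose, ⟨b.1, b.2.choose_spec.trans (mul_comm _ _)⟩⟩,
      fun b => b.2.choose_spec⟩
  have hbij : Function.Bijective f := by
    refine ⟨fun a b h => ?_, fun c => ?_⟩
    · have e := (hf a).symm.trans (hf b)
      rw [h] at e
      exact Subtype.ext (Subtype.ext (mul_right_cancel₀ (fun h0 => hI (by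
        rw [hf b, h0, mul_zero])) e))
    · obtain ⟨b, hb⟩ : ∃ b : Ideal (𝓞 K), I = c.1 * b := c.2
      have hb0 : b ≠ 0 := fun h => hI (by rw [hb, h, mul_zero])
      obtain ⟨B, hB⟩ : ∃ B : (Ideal (𝓞 K))⁰, (B : Ideal (𝓞 K)) = b :=
        ⟨⟨b, mem_nonZeroDivisors_iff_ne_zero.2 hb0⟩, rfl⟩
      have hBd : (B : Ideal (𝓞 K)) ∣ I := by
        rw [hB, hb]
        exact dvd_mul_left b c.1
      refine ⟨⟨B, hBd⟩, Subtype.ext (mul_left_cancel₀ (nonZeroDivisors.coe_ne_zero B) ?_)⟩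
      rw [← hf ⟨B, hBd⟩, hB, mul_comm, ← hb]
  haveI := finite_dvd hI
  haveI := Finite.of_injective f hbij.1
  haveI := Fintype.ofFinite {b : (Ideal (𝓞 K))⁰ // (b : Ideal (𝓞 K)) ∣ I}
  rw [idealSigma, ← (Equiv.ofBijective f hbij).tsum_eq, tsum_fintype, tsum_fintype, Nat.cast_sum]
  refine Finset.sum_congr rfl fun b _ => ?_
  rw [Equiv.ofBijective_apply, Nat.cast_pow]
  congr 1
  rw [div_eq_iff (Nat.cast_ne_zero.2 (Ideal.absNorm_ne_zero_of_nonZeroDivisors _)),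
    ← Nat.cast_mul, ← map_mul, mul_comm, ← hf b]

variable (K) in
/-- Siegel's sum: over the points of trace `m`, the divisor sums of `(ξ) 𝔡`. -/
def pointSum (j m : ℕ) : ℕ := ∑' ξ : TracePt K m, idealSigma j (pointIdeal ξ)

/-- **The coefficients summed over the classes.** -/
theorem sum_traceSum (k m : ℕ)
    (hfin : ∀ C : ClassGroup (𝓞 K), {y : PosPairs (repIdeal K C) |
      level (repIdeal K C) y = m}.Finite) :
    Finite (TracePt K m) ∧
    ∑ C : ClassGroup (𝓞 K), FractionalIdeal.absNorm (repIdeal K C : FractionalIdeal (𝓞 K)⁰ K) ^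
        (k - 1) * SiegelKlingen.traceSum (repIdeal K C) k m =
      Units.torsionOrder K * (pointSum K (k - 1) m : ℚ) /
        ((discr K).natAbs : ℚ) ^ (k - 1) := by
  obtain ⟨e, he⟩ := exists_equiv (K := K) m
  haveI : ∀ C : ClassGroup (𝓞 K), Finite {y : PosPairs (repIdeal K C) //
      level (repIdeal K C) y = m} := fun C => (hfin C).to_subtype
  haveI : Finite (DivPt K m) := Finite.of_equiv _ e.symm
  haveI hX : Finite (TracePt K m) :=
    Finite.of_injective (fun ξ => (⟨(ξ, (1, 1)), one_dvd _⟩ : DivPt K m)) fun ξ η h => by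
      simpa using h
  refine ⟨hX, ?_⟩
  obtain ⟨g, hg⟩ : ∃ g : DivPt K m → ℚ, ∀ q, g q = ((Ideal.absNorm (pointIdeal q.1.1) : ℚ) /
      (discr K).natAbs / Ideal.absNorm (q.1.2.1 : Ideal (𝓞 K))) ^ (k - 1) := ⟨_, fun _ => rfl⟩
  haveI := fun C : ClassGroup (𝓞 K) =>
    Fintype.ofFinite {y : PosPairs (repIdeal K C) // level (repIdeal K C) y = m}
  haveI := Fintype.ofFinite (DivPt K m)
  have h1 : ∑ C : ClassGroup (𝓞 K), FractionalIdeal.absNorm
      (repIdeal K C : FractionalIdeal (𝓞 K)⁰ K) ^ (k - 1) *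
        SiegelKlingen.traceSum (repIdeal K C) k m = ∑' q, g q := by
    rw [← e.symm.tsum_eq g, tsum_fintype, Fintype.sum_sigma]
    refine Finset.sum_congr rfl fun C _ => ?_
    rw [SiegelKlingen.traceSum, ← tsum_mul_left, tsum_fintype]
    refine Finset.sum_congr rfl fun y _ => ?_
    rw [hg, ← mul_pow]
    congr 1
    have h := he (e.symm ⟨C, y⟩)
    rw [Equiv.apply_symm_apply, normR, ← Rat.cast_mul] at h
    exact Rat.cast_injective h
  let S : TracePt K m → Type _ := fun ξ =>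
    {b : (Ideal (𝓞 K))⁰ // (b : Ideal (𝓞 K)) ∣ pointIdeal ξ} × Units.torsion K
  let E : (Σ ξ : TracePt K m, S ξ) ≃ DivPt K m :=
    { toFun := fun z => ⟨(z.1, (z.2.1.1, z.2.2)), z.2.1.2⟩
      invFun := fun q => ⟨q.1.1, (⟨q.1.2.1, q.2⟩, q.1.2.2)⟩
      left_inv := fun z => rfl
      right_inv := fun q => rfl }
  haveI : Finite (Σ ξ : TracePt K m, S ξ) := Finite.of_equiv _ E.symm
  haveI := Fintype.ofFinite (TracePt K m)
  haveI : ∀ ξ : TracePt K m, Finite {b : (Ideal (𝓞 K))⁰ // (b : Ideal (𝓞 K)) ∣ pointIdeal ξ} :=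
    fun ξ => Finite.of_injective (fun b => (⟨ξ, (b, 1)⟩ : Σ ξ : TracePt K m, S ξ))
      fun b b' h => congrArg Prod.fst (eq_of_heq (Sigma.mk.inj_iff.1 h).2)
  haveI := fun ξ : TracePt K m =>
    Fintype.ofFinite {b : (Ideal (𝓞 K))⁰ // (b : Ideal (𝓞 K)) ∣ pointIdeal ξ}
  haveI := Fintype.ofFinite (Units.torsion K)
  letI : ∀ ξ : TracePt K m, Fintype (S ξ) := fun ξ => inferInstanceAs (Fintype
    ({b : (Ideal (𝓞 K))⁰ // (b : Ideal (𝓞 K)) ∣ pointIdeal ξ} × Units.torsion K))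
  rw [h1, ← E.tsum_eq g, tsum_fintype, Fintype.sum_sigma, pointSum, tsum_fintype, Nat.cast_sum,
    Finset.mul_sum, Finset.sum_div]
  refine Finset.sum_congr rfl fun ξ _ => ?_
  rw [← tsum_cofactor (k - 1) (pointIdeal_ne_zero ξ), tsum_fintype, Finset.mul_sum, Finset.sum_div]
  simp only [S, E, Equiv.coe_fn_mk, hg]
  rw [Fintype.sum_prod_type]
  refine Finset.sum_congr rfl fun b _ => ?_
  simp only [Finset.sum_const, Finset.card_univ, nsmul_eq_mul, Units.torsionOrder,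
    Nat.card_eq_fintype_card]
  rw [mul_div_assoc, ← div_pow, div_right_comm]

end FA.SiegelConstant

end
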