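import Fermat.Agent.SiegelConstant.ConstantTerm
import Fermat.Agent.SiegelConstant.Divisors
import Fermat.Agent.SiegelKlingen.ValuesTwo
import Fermat.Agent.SiegelKlingen.RealQuadratic

/-!
# Siegel's formula for every totally real field

Siegel's theorem on constant terms applied to the diagonal Eisenstein series, class by class.
-/

set_option autoImplicit false
set_option linter.unusedSectionVars false
set_option linter.style.haveILetI false

noncomputable section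

open NumberField InfinitePlace Module Filter Complex
open UpperHalfPlane (qExpansion)
open scoped Real nonZeroDivisors Classical MatrixGroups Nat

namespace FA.SiegelConstant

open FA.HeckeFE FA.SiegelKlingen

variable {K : Type*} [Field K] [NumberField K] [IsTotallyReal K]

theorem series_ready {k : ℕ} (hk : Even k) (hk2 : 2 ≤ k) (hw : 4 ≤ k * finrank ℚ K)
    (J : (FractionalIdeal (𝓞 K)⁰ K)ˣ) : SummableTerms J k ∧ IsInvariant J k := by
  rcases Nat.lt_or_ge k 4 with h | h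
  · obtain rfl : k = 2 := by
      obtain ⟨j, rfl⟩ := hk
      omega
    exact ⟨summableTerms_two J, isInvariant_two J (by omega)⟩
  · exact ⟨summableTerms_of_four J hk h, isInvariant_of_four J hk h⟩

theorem finite_tracePt {k : ℕ} (hk : Even k) (hk2 : 2 ≤ k) (hw : 4 ≤ k * finrank ℚ K)
    (m : ℕ) :
    Finite (TracePt K m) :=
  (sum_traceSum k m fun _ => finite_level _ hk hk2 (series_ready hk hk2 hw _).1 m).1

variable (K) in
/-- `∑ b_l S_l`. -/
def siegelTotal (k : ℕ) : ℚ :=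
  ∑ l ∈ Finset.Icc 1 (formDim (k * finrank ℚ K)),
    constB (k * finrank ℚ K) l * (pointSum K (k - 1) l : ℚ)

/-- **The zeta value at `k` through the sums over the points of small trace.** -/
theorem dedekindZeta_eq_total {k : ℕ} (hk : Even k) (hk2 : 2 ≤ k)
    (hw : 4 ≤ k * finrank ℚ K) :
    dedekindZeta K (k : ℂ) = (-(2 * π * I)) ^ (k * finrank ℚ K) /
      (((k - 1)! : ℂ) ^ finrank ℚ K * (SiegelKlingen.rootDiscr K : ℂ)) *
        ((siegelTotal K k / ((discr K).natAbs : ℚ) ^ (k - 1) : ℚ) : ℂ) := by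
  obtain ⟨G, hG⟩ : ∃ G : ℂ, G = (-(2 * π * I)) ^ (k * finrank ℚ K) /
      (((k - 1)! : ℂ) ^ finrank ℚ K * (SiegelKlingen.rootDiscr K : ℂ)) := ⟨_, rfl⟩
  rw [← hG]
  have hs : 1 < (k : ℂ).re := by
    rw [natCast_re]
    exact_mod_cast (by omega : 1 < k)
  refine mul_left_cancel₀ (Nat.cast_ne_zero.2 (NeZero.ne _) : (Units.torsionOrder K : ℂ) ≠ 0) ?_
  have hC : ∀ C : ClassGroup (𝓞 K), (Units.torsionOrder K : ℂ) * FA.PrimeIdeal.classZ C (k : ℂ) =
      ∑ l ∈ Finset.Icc 1 (formDim (k * finrank ℚ K)), (constB (k * finrank ℚ K) l : ℂ) * G *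
        ((FractionalIdeal.absNorm (repIdeal K C : FractionalIdeal (𝓞 K)⁰ K) ^ (k - 1) *
          traceSum (repIdeal K C) k l : ℚ) : ℂ) := fun C => by
    obtain ⟨hS, hI⟩ := series_ready hk hk2 hw (repIdeal K C)
    have h := constant_term (hk.mul_right _) hw (eisForm (repIdeal K C) hk hk2 hS hI)
    rw [coeff_eisForm, if_pos rfl] at h
    rw [← normR_pow_constSum hk2, h, Finset.mul_sum]
    refine Finset.sum_congr rfl fun l hl => ?_
    rw [coeff_eisForm, if_neg (by rw [Finset.mem_Icc] at hl; omega), factor,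
      ← SiegelKlingen.rootDiscr, hG]
    obtain ⟨j, rfl⟩ : ∃ j, k = j + 1 := ⟨k - 1, by omega⟩
    rw [normR, Rat.cast_mul, Rat.cast_pow, ofReal_ratCast, ofReal_mul, ofReal_ratCast,
      Nat.add_sub_cancel, pow_succ]
    have h1 : ((FractionalIdeal.absNorm (repIdeal K C : FractionalIdeal (𝓞 K)⁰ K) : ℚ) : ℂ) ≠
        0 := by
      rw [← ofReal_ratCast]
      exact ofReal_ne_zero.2 (normR_pos _).ne'
    have h2 : (j ! : ℂ) ≠ 0 := Nat.cast_ne_zero.2 (Nat.factorial_ne_zero _)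
    have h3 : (SiegelKlingen.rootDiscr K : ℂ) ≠ 0 :=
      ofReal_ne_zero.2 rootDiscr_pos.ne'
    field_simp
  rw [FA.PrimeIdeal.dedekindZeta_eq_sum_classZ hs, Finset.mul_sum,
    Finset.sum_congr rfl fun C _ => hC C, Finset.sum_comm, siegelTotal, Finset.sum_div,
    Rat.cast_sum, Finset.mul_sum, Finset.mul_sum]
  refine Finset.sum_congr rfl fun l _ => ?_
  rw [← Finset.mul_sum, ← Rat.cast_sum,
    (sum_traceSum k l fun _ => finite_level _ hk hk2 (series_ready hk hk2 hw _).1 l).2]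
  push_cast
  ring

/-- **Siegel's formula**: the value at `1 - k`. -/
theorem extension_one_sub {k : ℕ} (hk : Even k) (hk2 : 2 ≤ k) (hw : 4 ≤ k * finrank ℚ K) :
    extension K (1 - (k : ℂ)) = ((2 ^ finrank ℚ K * siegelTotal K k : ℚ) : ℂ) := by
  obtain ⟨t, rfl⟩ : ∃ t, k = 2 * t := hk.exists_two_nsmul.imp fun t h => by simpa using h
  obtain ⟨n, hn⟩ : ∃ n, n = finrank ℚ K := ⟨_, rfl⟩
  obtain ⟨D, hD⟩ : ∃ D : ℚ, D = ((discr K).natAbs : ℚ) := ⟨_, rfl⟩
  have hD0 : D ≠ 0 := hD ▸ Nat.cast_ne_zero.2 (Int.natAbs_ne_zero.2 (discr_ne_zero K))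
  have hval := dedekindZeta_eq_total hk hk2 hw
  rw [← hn, ← hD] at hval
  have hrr : (SiegelKlingen.rootDiscr K : ℂ) * SiegelKlingen.rootDiscr K = (D : ℂ) := by
    rw [← ofReal_mul, SiegelKlingen.rootDiscr, Real.mul_self_sqrt (abs_nonneg _), hD,
      Rat.cast_natCast,
      ← Int.cast_abs, ofReal_intCast, Int.abs_eq_natAbs, Int.cast_natCast]
  have hp : (-(2 * (π : ℂ) * I)) ^ (2 * t * n) =
      (-1) ^ (t * n) * 2 ^ (2 * (t * n)) * (π : ℂ) ^ (2 * (t * n)) := by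
    rw [mul_assoc 2 t n, pow_mul, show (-(2 * (π : ℂ) * I)) ^ 2 = -1 * 2 ^ 2 * (π : ℂ) ^ 2 by
      linear_combination (4 * (π : ℂ) ^ 2) * I_sq, mul_pow, mul_pow, ← pow_mul, ← pow_mul]
  have hz : dedekindZeta K ((2 * t : ℕ) : ℂ) = (((-1) ^ (t * n) * 2 ^ (2 * (t * n)) *
      siegelTotal K (2 * t) / (((2 * t - 1)! : ℚ) ^ n * D ^ (2 * t)) : ℚ) : ℂ) *
        ((π : ℂ) ^ (2 * t * finrank ℚ K) * SiegelKlingen.rootDiscr K) := by
    rw [hval, hp, ← hn, mul_assoc 2 t n]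
    obtain ⟨s, rfl⟩ : ∃ s, t = s + 1 := ⟨t - 1, by omega⟩
    rw [show 2 * (s + 1) - 1 = 2 * s + 1 by omega, show 2 * (s + 1) = 2 * s + 1 + 1 by omega,
      pow_succ D]
    have h2 : (((2 * s + 1)! : ℕ) : ℂ) ≠ 0 := Nat.cast_ne_zero.2 (Nat.factorial_ne_zero _)
    have h3 : (SiegelKlingen.rootDiscr K : ℂ) ≠ 0 :=
      ofReal_ne_zero.2 rootDiscr_pos.ne'
    have h4 : (D : ℂ) ≠ 0 := Rat.cast_ne_zero.2 hD0
    push_cast
    field_simp
    linear_combination -((siegelTotal K (2 * s + 1 + 1) : ℂ) * (D : ℂ) ^ (2 * s + 1)) * hrr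
  rw [extension_eq (by omega) hz, ← hD, ← hn]
  congr 1
  have h2 : (((2 * t - 1)! : ℕ) : ℚ) ≠ 0 := Nat.cast_ne_zero.2 (Nat.factorial_ne_zero _)
  have h1 : ((-1 : ℚ) ^ (t * n)) * (-1) ^ (t * n) = 1 := by rw [← mul_pow]; simp
  rw [div_pow, mul_pow, mul_pow, ← pow_mul (-1 : ℚ), ← pow_mul (2 : ℚ), mul_assoc 2 t n]
  field_simp
  linear_combination siegelTotal K (2 * t) * h1

/-- **Siegel's integrality**: one denominator for all fields with the same `k n`. -/
theorem constC_mul_total {k : ℕ} (hk : Even k) (hw : 4 ≤ k * finrank ℚ K) :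
    (constC (k * finrank ℚ K) 0 : ℚ) * siegelTotal K k =
      ((-∑ l ∈ Finset.Icc 1 (formDim (k * finrank ℚ K)),
        constC (k * finrank ℚ K) l * (pointSum K (k - 1) l : ℤ) : ℤ) : ℚ) := by
  rw [siegelTotal, Finset.mul_sum]
  push_cast
  rw [← Finset.sum_neg_distrib]
  refine Finset.sum_congr rfl fun l _ => ?_
  rw [← mul_assoc, constB_mul _ l (hk.mul_right _) hw]
  ring

theorem siegelTotal_ne_zero {k : ℕ} (hk : Even k) (hk2 : 2 ≤ k) (hw : 4 ≤ k * finrank ℚ K) :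
    siegelTotal K k ≠ 0 := by
  obtain ⟨r, hr0, hr⟩ := extension_mem (K := K) hk hk2
    (dedekindZeta_mem hk hk2 (classZ_mem_even hk hk2))
  intro h
  rw [extension_one_sub hk hk2 hw, h, mul_zero, Rat.cast_zero] at hr
  exact hr0 (Rat.cast_eq_zero.1 hr.symm)

/-- **Totally positive elements of small trace** in the inverse different. -/
theorem exists_tracePt (hn : 2 ≤ finrank ℚ K) :
    ∃ l, 1 ≤ l ∧ l ≤ formDim (2 * finrank ℚ K) ∧ Nonempty (TracePt K l) := by
  by_contra h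
  refine siegelTotal_ne_zero (K := K) even_two le_rfl (by omega) ?_
  rw [siegelTotal]
  refine Finset.sum_eq_zero fun l hl => ?_
  rw [Finset.mem_Icc] at hl
  haveI : IsEmpty (TracePt K l) := ⟨fun ξ => h ⟨l, hl.1, hl.2, ⟨ξ⟩⟩⟩
  rw [pointSum, tsum_empty, Nat.cast_zero, mul_zero]

end FA.SiegelConstant

end
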