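import Fermat.Agent.SiegelConstant.Series
import Fermat.Agent.SiegelKlingen.RationalConstant

/-!
# Siegel's theorem on constant terms

For even `w ≥ 4` and `r` the dimension of the forms of level one and weight `w`, the constant term
of a form is a fixed rational combination of the coefficients of `q, …, q ^ r`.
-/

set_option autoImplicit false

noncomputable section

open UpperHalfPlane hiding I
open ModularForm FA.Eis FA.Tau
open scoped MatrixGroups ArithmeticFunction.sigma

namespace FA.SiegelConstant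

open ModularCurve FA.SiegelKlingen

/-- The dimension of the forms of weight `w`, for even `w`. -/
def formDim (w : ℕ) : ℕ := if w % 12 = 2 then w / 12 else w / 12 + 1

/-- The exponent of `E₆` in Siegel's auxiliary form of weight `12 r + 2 - w`. -/
def auxE (w : ℕ) : ℕ := if (12 * formDim w + 2 - w) % 4 = 2 then 1 else 0

/-- The exponent of `E₄`. -/
def auxI (w : ℕ) : ℕ := (12 * formDim w + 2 - w - 6 * auxE w) / 4

theorem aux_spec {w : ℕ} (hev : Even w) (hw : 4 ≤ w) :
    4 * auxI w + 6 * auxE w + w = 12 * formDim w + 2 ∧ 1 ≤ formDim w ∧ auxE w ≤ 1 ∧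
      (auxE w = 1 → auxI w + 1 ≠ 3 * formDim w) := by
  rw [Nat.even_iff] at hev
  simp only [auxI, auxE, formDim]
  refine ⟨?_, ?_, ?_, fun h => ?_⟩ <;> split_ifs at * <;> omega

/-- Siegel's numbers. -/
def constC (w l : ℕ) : ℤ :=
  PowerSeries.coeff (formDim w - l)
    (eFourInt ^ auxI w * eSixInt ^ auxE w * dedekindEtaUnitInv ^ formDim w)

theorem constC_zero_ne_zero {w : ℕ} (hev : Even w) (hw : 4 ≤ w) : constC w 0 ≠ 0 := by
  obtain ⟨-, h1, h2, h3⟩ := aux_spec hev hw
  exact coeff_ne_zero h1 h2 h3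

theorem sum_monoInt_eq_zero {w : ℕ} (hev : Even w) (hw : 4 ≤ w) {p : ℕ × ℕ}
    (hp : 4 * p.1 + 6 * p.2 = w) :
    ∑ l ∈ Finset.range (formDim w + 1), constC w l * PowerSeries.coeff l (monoInt p) = 0 := by
  obtain ⟨h, -, -, -⟩ := aux_spec hev hw
  have h0 := coeff_eq_zero (a := p.1 + auxI w) (b := p.2 + auxE w) (r := formDim w) (by omega)
  rw [show eFourInt ^ (p.1 + auxI w) * eSixInt ^ (p.2 + auxE w) *
      dedekindEtaUnitInv ^ formDim w = monoInt p *
        (eFourInt ^ auxI w * eSixInt ^ auxE w * dedekindEtaUnitInv ^ formDim w) by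
      rw [monoInt, pow_add, pow_add]; ring,
    PowerSeries.coeff_mul, Finset.Nat.sum_antidiagonal_eq_sum_range_succ_mk] at h0
  rw [← h0]
  exact Finset.sum_congr rfl fun l _ => mul_comm _ _

/-- **Siegel's relation** between the coefficients of a form. -/
theorem sum_coeff_eq_zero {w : ℕ} (hev : Even w) (hw : 4 ≤ w) (f : ModularForm 𝒮ℒ (w : ℤ)) :
    ∑ l ∈ Finset.range (formDim w + 1), (constC w l : ℂ) * (qExpansion 1 f).coeff l = 0 := by
  obtain ⟨x, hx⟩ := Finsupp.mem_span_range_iff_exists_finsupp.1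
    (LevelOneRing.mem_span (w + 1) (w : ℤ) (by omega) f)
  rw [Finsupp.sum] at hx
  have hA : qExpansion 1 f = ∑ i ∈ x.support, x i • (monoInt i.1).map (Int.castRingHom ℂ) := by
    refine (hasQ_form f).unique one_pos ?_
    rw [← hx]
    exact HasQ.sum _ fun i _ => (hasQ_monomial (w : ℤ) i).smul (x i)
  simp only [hA, map_sum, PowerSeries.coeff_smul, PowerSeries.coeff_map, eq_intCast, smul_eq_mul,
    Finset.mul_sum]
  rw [Finset.sum_comm]
  refine Finset.sum_eq_zero fun i _ => ?_
  have h := congrArg (Int.cast : ℤ → ℂ) (sum_monoInt_eq_zero hev hw (p := i.1)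
    (by exact_mod_cast i.2))
  push_cast at h
  rw [← mul_zero (x i), ← h, Finset.mul_sum]
  exact Finset.sum_congr rfl fun l _ => by ring

/-- Siegel's `b_l`. -/
def constB (w l : ℕ) : ℚ := -(constC w l : ℚ) / (constC w 0 : ℚ)

theorem constB_mul (w l : ℕ) (hev : Even w) (hw : 4 ≤ w) :
    (constC w 0 : ℚ) * constB w l = -(constC w l : ℚ) := by
  rw [constB, mul_div_cancel₀ _ (Int.cast_ne_zero.2 (constC_zero_ne_zero hev hw))]

/-- **Siegel's theorem**: the constant term through the coefficients of `q, …, q ^ r`. -/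
theorem constant_term {w : ℕ} (hev : Even w) (hw : 4 ≤ w) (f : ModularForm 𝒮ℒ (w : ℤ)) :
    (qExpansion 1 f).coeff 0 =
      ∑ l ∈ Finset.Icc 1 (formDim w), (constB w l : ℂ) * (qExpansion 1 f).coeff l := by
  have h0 : (constC w 0 : ℂ) ≠ 0 := Int.cast_ne_zero.2 (constC_zero_ne_zero hev hw)
  refine mul_left_cancel₀ h0 ?_
  have h := sum_coeff_eq_zero hev hw f
  rw [Finset.range_eq_Ico, Finset.sum_eq_sum_Ico_succ_bot (Nat.succ_pos _)] at h
  rw [Finset.mul_sum, eq_neg_of_add_eq_zero_left h, ← Finset.sum_neg_distrib,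
    show Finset.Icc 1 (formDim w) = Finset.Ico (0 + 1) (formDim w + 1) by
      ext; simp]
  refine Finset.sum_congr rfl fun l _ => ?_
  rw [← mul_assoc, ← Rat.cast_intCast (constC w 0), ← Rat.cast_mul, constB_mul w l hev hw]
  push_cast
  ring

/-- The coefficients of `q, …, q ^ r` determine the form. -/
theorem eq_zero_of_coeff {w : ℕ} (hev : Even w) (hw : 4 ≤ w) (f : ModularForm 𝒮ℒ (w : ℤ))
    (h : ∀ l, 1 ≤ l → l ≤ formDim w → (qExpansion 1 f).coeff l = 0) : f = 0 := by
  refine ModularForm.sturm_bound_levelOne_nat ?_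
  refine lt_of_lt_of_le (Nat.cast_lt.2 (Nat.lt_succ_self _))
    (PowerSeries.nat_le_order _ (w / 12 + 1) fun i hi => ?_)
  rcases Nat.eq_zero_or_pos i with rfl | hi0
  · rw [constant_term hev hw f]
    exact Finset.sum_eq_zero fun l hl => by
      rw [h l (Finset.mem_Icc.1 hl).1 (Finset.mem_Icc.1 hl).2, mul_zero]
  · refine h i hi0 ?_
    rw [Nat.even_iff] at hev
    rw [formDim]
    split_ifs <;> omega

theorem constantCoeff_forms : PowerSeries.constantCoeff eTwoInt = 1 ∧
    PowerSeries.constantCoeff eFourInt = 1 ∧ PowerSeries.constantCoeff eSixInt = 1 := by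
  simp only [← PowerSeries.coeff_zero_eq_constantCoeff_apply, eTwoInt, eFourInt, eSixInt,
    PowerSeries.coeff_mk, if_pos, and_self]

theorem coeff_one_etaUnitInv : PowerSeries.coeff 1 dedekindEtaUnitInv = 24 := by
  have h := congrArg (PowerSeries.coeff 1) theta_etaUnitInv
  rw [coeff_thetaInt, PowerSeries.coeff_one_mul] at h
  simpa [eTwoInt, constantCoeff_forms.1, constantCoeff_dedekindEtaUnitInv] using h

/-- The numbers in the weights with one dimension. -/
theorem constB_small : constB 4 1 = 1 / 240 ∧ constB 6 1 = -1 / 504 ∧ constB 8 1 = 1 / 480 ∧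
    constB 10 1 = -1 / 264 ∧ constB 14 1 = -1 / 24 := by
  simp [constB, constC, formDim, auxI, auxE, PowerSeries.coeff_one_mul, PowerSeries.coeff_one_pow,
    coeff_one_etaUnitInv, constantCoeff_dedekindEtaUnitInv, constantCoeff_forms.2.1,
    constantCoeff_forms.2.2]
  norm_num [eFourInt, eSixInt]

end FA.SiegelConstant

end
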