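import Fermat.Agent.Tau.QuasiModular

/-!
# Siegel's series

With `P = ∏ (1 - qⁿ) ^ 24`, so `Δ = q P`: the coefficient of `q ^ r` of `E₄ᵃ E₆ᵇ / P ^ r` is zero
when `4 a + 6 b = 12 r + 2`, and is not zero when `4 a + 6 b` is `0, 4, 6, 8, 10` or `14` and
`1 ≤ r`, except for `a = 2`, `b = 1`, `r = 1`. Both come from the fact that `q d/dq` multiplies the
coefficient of `q ^ r` by `r`, with Ramanujan's identity for `E₄` and `q d/dq Δ = E₂ Δ`.
-/

set_option autoImplicit false

noncomputable section

open scoped ArithmeticFunction.sigma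

namespace FA.SiegelConstant

open FA.Tau ModularCurve PowerSeries

/-- `1 / P`. -/
local notation "Q" => dedekindEtaUnitInv

theorem theta_etaUnit : thetaInt dedekindEtaUnit = (eTwoInt - 1) * dedekindEtaUnit := by
  refine mul_left_cancel₀ (X_ne_zero (R := ℤ)) ?_
  have h := theta_delta
  have hX : thetaDer (X : PowerSeries ℤ) = X := by
    rw [thetaDer_apply, thetaInt_eq, derivative_X, mul_one]
  rw [deltaInt, ← thetaDer_apply, Derivation.leibniz, hX, smul_eq_mul, smul_eq_mul,
    thetaDer_apply] at h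
  linear_combination h

theorem theta_etaUnitInv : thetaInt Q = (1 - eTwoInt) * Q := by
  have h := congrArg thetaDer dedekindEtaUnit_mul_inv
  rw [Derivation.leibniz, Derivation.map_one_eq_zero, smul_eq_mul, smul_eq_mul, thetaDer_apply,
    thetaDer_apply, theta_etaUnit] at h
  linear_combination Q * h -
    (thetaInt Q + (eTwoInt - 1) * Q) * dedekindEtaUnit_mul_inv

theorem theta_pow_etaUnitInv (r : ℕ) : thetaInt (Q ^ r) = (r : PowerSeries ℤ) *
    ((1 - eTwoInt) * Q ^ r) := by
  cases r with
  | zero => rw [pow_zero, Nat.cast_zero, zero_mul, ← thetaDer_apply, Derivation.map_one_eq_zero]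
  | succ r =>
    rw [← thetaDer_apply, Derivation.leibniz_pow, thetaDer_apply, theta_etaUnitInv, smul_eq_mul,
      nsmul_eq_mul, Nat.add_sub_cancel, pow_succ]
    ring

theorem theta_pow_eFour (i : ℕ) : 3 * thetaInt (eFourInt ^ (i + 1)) =
    ((i + 1 : ℕ) : PowerSeries ℤ) * (eTwoInt * eFourInt ^ (i + 1) - eFourInt ^ i * eSixInt) := by
  rw [← thetaDer_apply, Derivation.leibniz_pow, thetaDer_apply, smul_eq_mul, nsmul_eq_mul,
    Nat.add_sub_cancel, pow_succ]
  linear_combination ((i + 1 : ℕ) : PowerSeries ℤ) * eFourInt ^ i * theta_eFour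

theorem coeff_thetaInt (n : ℕ) (A : PowerSeries ℤ) : coeff n (thetaInt A) = n * coeff n A := by
  rw [thetaInt, coeff_mk]

theorem coeff_natCast_mul (n m : ℕ) (A : PowerSeries ℤ) :
    coeff n ((m : PowerSeries ℤ) * A) = m * coeff n A := by
  rw [← map_natCast (C (R := ℤ)), coeff_C_mul]

/-- The identity behind both results. -/
theorem coeff_identity (i r : ℕ) :
    (r : ℤ) * (i + 1) * coeff r (eFourInt ^ i * eSixInt * Q ^ r) =
      ((i : ℤ) + 1 - 3 * r) * coeff r (thetaInt (eFourInt ^ (i + 1)) * Q ^ r) := by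
  have hD := Derivation.leibniz thetaDer (eFourInt ^ (i + 1)) (Q ^ r)
  rw [smul_eq_mul, smul_eq_mul, thetaDer_apply, thetaDer_apply, thetaDer_apply,
    theta_pow_etaUnitInv] at hD
  have h4 := theta_pow_eFour i
  have key : (r : PowerSeries ℤ) * ((i + 1 : ℕ) : PowerSeries ℤ) *
      (eFourInt ^ i * eSixInt * Q ^ r) + (3 : ℕ) * ((r : PowerSeries ℤ) *
        (thetaInt (eFourInt ^ (i + 1)) * Q ^ r)) =
      ((i + 1 : ℕ) : PowerSeries ℤ) * (thetaInt (eFourInt ^ (i + 1)) * Q ^ r) +
        ((i + 1 : ℕ) : PowerSeries ℤ) * ((r : PowerSeries ℤ) * (eFourInt ^ (i + 1) * Q ^ r)) -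
          ((i + 1 : ℕ) : PowerSeries ℤ) * thetaInt (eFourInt ^ (i + 1) * Q ^ r) := by
    push_cast at h4 ⊢
    linear_combination (r : PowerSeries ℤ) * Q ^ r * h4 + ((i : PowerSeries ℤ) + 1) * hD
  have h := congrArg (coeff r) key
  simp only [map_add, map_sub, mul_assoc ((r : PowerSeries ℤ)), coeff_natCast_mul,
    coeff_thetaInt] at h
  push_cast at h
  linear_combination h

/-- **The vanishing**: weight `12 r + 2` has no coefficient of `q ^ r` in `· / P ^ r`. -/
theorem coeff_eq_zero : ∀ {b a r : ℕ}, 4 * a + 6 * b = 12 * r + 2 →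
    coeff r (eFourInt ^ a * eSixInt ^ b * Q ^ r) = 0 := by
  intro b
  induction b using Nat.strong_induction_on with
  | _ b ih =>
    intro a r h
    match b, ih, h with
    | 0, _, h => omega
    | 1, _, h =>
      rw [pow_one]
      have e := coeff_identity a r
      rw [show ((a : ℤ) + 1 - 3 * r) = 0 by omega, zero_mul] at e
      exact (mul_eq_zero.1 e).resolve_left (mul_ne_zero (by omega) (by omega))
    | b + 2, ih, h =>
      obtain ⟨r', rfl⟩ : ∃ r', r = r' + 1 := ⟨r - 1, by omega⟩
      have key : eFourInt ^ a * eSixInt ^ (b + 2) * Q ^ (r' + 1) =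
          eFourInt ^ (a + 3) * eSixInt ^ b * Q ^ (r' + 1) -
            ((1728 : ℕ) : PowerSeries ℤ) * (X * (eFourInt ^ a * eSixInt ^ b * Q ^ r')) := by
        have hd := delta_eq
        rw [deltaInt] at hd
        push_cast
        linear_combination (eFourInt ^ a * eSixInt ^ b * Q ^ (r' + 1)) * hd -
          1728 * X * eFourInt ^ a * eSixInt ^ b * Q ^ r' * dedekindEtaUnit_mul_inv
      rw [key, map_sub, coeff_natCast_mul, coeff_succ_X_mul, ih b (by omega) (by omega),
        ih b (by omega) (by omega), mul_zero, sub_zero]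

/-- All coefficients positive. -/
def AllPos (A : PowerSeries ℤ) : Prop := ∀ n, 0 < coeff n A

theorem AllPos.mul {A B : PowerSeries ℤ} (hA : AllPos A) (hB : AllPos B) : AllPos (A * B) :=
  fun n => by
    rw [coeff_mul]
    exact Finset.sum_pos (fun p _ => mul_pos (hA _) (hB _))
      ⟨(0, n), Finset.HasAntidiagonal.mem_antidiagonal.2 (zero_add n)⟩

theorem AllPos.pow {A : PowerSeries ℤ} (hA : AllPos A) : ∀ i, AllPos (A ^ (i + 1))
  | 0 => by rwa [zero_add, pow_one]
  | i + 1 => by
    rw [pow_succ]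
    exact (hA.pow i).mul hA

theorem allPos_eFour : AllPos eFourInt := fun n => by
  rw [eFourInt, coeff_mk]
  split_ifs with h
  · exact one_pos
  · exact mul_pos (by norm_num) (Nat.cast_pos.2 (ArithmeticFunction.sigma_pos _ _ h))

theorem allPos_etaUnitInv : AllPos Q := fun n => by
  induction n using Nat.strong_induction_on with
  | _ n ih =>
    rcases Nat.eq_zero_or_pos n with rfl | hn
    · rw [coeff_zero_eq_constantCoeff, constantCoeff_dedekindEtaUnitInv]
      exact one_pos
    · have h := congrArg (coeff n) theta_etaUnitInv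
      rw [coeff_thetaInt] at h
      have hpos : 0 < coeff n ((1 - eTwoInt) * Q) := by
        rw [coeff_mul]
        refine Finset.sum_pos' (fun p hp => ?_)
          ⟨(n, 0), Finset.HasAntidiagonal.mem_antidiagonal.2 (add_zero n), ?_⟩
        · rw [Finset.HasAntidiagonal.mem_antidiagonal] at hp
          rcases Nat.eq_zero_or_pos p.1 with h0 | h0
          · simp [h0, eTwoInt]
          · refine mul_nonneg ?_ (ih p.2 (by omega)).le
            simp [eTwoInt, h0.ne']
        · refine mul_pos ?_ (ih 0 hn)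
          simp [eTwoInt, hn.ne', hn]
      rw [← h] at hpos
      exact pos_of_mul_pos_right hpos (by omega)

/-- **The non-vanishing**. -/
theorem coeff_ne_zero {i e r : ℕ} (hr : 1 ≤ r) (he : e ≤ 1) (h : e = 1 → i + 1 ≠ 3 * r) :
    coeff r (eFourInt ^ i * eSixInt ^ e * Q ^ r) ≠ 0 := by
  obtain ⟨s, rfl⟩ : ∃ s, r = s + 1 := ⟨r - 1, by omega⟩
  have hQ := allPos_etaUnitInv.pow s
  interval_cases e
  · rw [pow_zero, mul_one]
    refine (?_ : (0 : ℤ) < _).ne'
    cases i with
    | zero => rw [pow_zero, one_mul]; exact hQ _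
    | succ i => exact ((allPos_eFour.pow i).mul hQ) _
  · rw [pow_one]
    intro h0
    have e := coeff_identity i (s + 1)
    rw [h0, mul_zero] at e
    refine (mul_eq_zero.1 e.symm).elim (fun h' => h rfl (by omega)) fun h' => h'.not_gt ?_
    rw [coeff_mul]
    refine Finset.sum_pos' (fun p _ => ?_)
      ⟨(s + 1, 0), Finset.HasAntidiagonal.mem_antidiagonal.2 (add_zero _), ?_⟩
    · rw [coeff_thetaInt]
      have := (allPos_eFour.pow i p.1).le
      have := (hQ p.2).le
      positivity
    · rw [coeff_thetaInt]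
      exact mul_pos (mul_pos (by exact_mod_cast hr) (allPos_eFour.pow i _)) (hQ _)

end FA.SiegelConstant

end
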